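import Mathlib

/-!
# S26, block LS/FF4 (helper798): `[K(t_1,…,t_g) : K(t_1^r,…,t_g^r)] = r^g`

Pure field theory, Mathlib only, any characteristic.  For an algebraically independent family
`t : ι → E` over `K` and `0 < r`,
`finrank K(t^r) E = r ^ card ι * finrank K(t) E` (both sides `0` when `E / K(t)` is infinite).

Route: lower one variable at a time (`finrank_adjoin_insert_pow`); the one-variable statement is
that a nonzero polynomial over `K(S, t^r)` vanishing at `t` has degree `≥ r` whenever `t` is
transcendental over `K(S)` (`natDegree_ge_of_aeval_eq_zero`, by clearing denominators and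
comparing coefficients in residue classes mod `r`).
-/

set_option autoImplicit false

namespace Fermat.Agent.S26.LS.H798

open Polynomial IntermediateField

/-- In `∑_{j ≤ d} (expand r (p j)) * X ^ j` with `d < r`, the coefficient at `r * m + d` is the
coefficient of `p d` at `m`. -/
theorem coeff_sum_expand_mul_X_pow {A : Type*} [CommRing A] (r d : ℕ) (hd : d < r)
    (p : ℕ → A[X]) (m : ℕ) :
    (∑ j ∈ Finset.range (d + 1), expand A r (p j) * X ^ j).coeff (r * m + d) =
      (p d).coeff m := by
  have hr : 0 < r := lt_of_le_of_lt (Nat.zero_le _) hd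
  rw [Polynomial.finsetSum_coeff]
  rw [Finset.sum_eq_single d]
  · rw [coeff_mul_X_pow', if_pos (Nat.le_add_left _ _), Nat.add_sub_cancel,
      coeff_expand hr, if_pos (Dvd.intro _ rfl), Nat.mul_div_cancel_left _ hr]
  · intro j hj hjd
    have hj' : j < d + 1 := Finset.mem_range.mp hj
    have hjlt : j < d := lt_of_le_of_ne (Nat.lt_succ_iff.mp hj') hjd
    rw [coeff_mul_X_pow', if_pos (by omega), coeff_expand hr, if_neg]
    intro hdvd
    have h1 : r * m + d - j = r * m + (d - j) := by omega
    rw [h1] at hdvd
    have h2 : r ∣ d - j := (Nat.dvd_add_right (Dvd.intro _ rfl)).mp hdvd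
    have h3 : d - j < r := by omega
    have h4 : 0 < d - j := by omega
    exact absurd (Nat.le_of_dvd h4 h2) (by omega)
  · intro h
    exact absurd (Finset.mem_range.mpr (Nat.lt_succ_self d)) h


variable {K E : Type*} [Field K] [Field E] [Algebra K E]

/-- Every element of `K[S, x]` is a polynomial in `x` with coefficients in `K[S]`. -/
theorem exists_aeval_eq_of_mem_adjoin_insert (S : Set E) (x : E) {y : E}
    (hy : y ∈ Algebra.adjoin K (insert x S)) :
    ∃ p : (Algebra.adjoin K S)[X], aeval x p = y := by
  induction hy using Algebra.adjoin_induction with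
  | mem z hz =>
    rcases hz with rfl | hz
    · exact ⟨X, by simp⟩
    · exact ⟨C ⟨z, Algebra.subset_adjoin hz⟩, by simp⟩
  | algebraMap c =>
    exact ⟨C (algebraMap K _ c), by simp⟩
  | add a b _ _ ha hb =>
    obtain ⟨p, rfl⟩ := ha
    obtain ⟨q, rfl⟩ := hb
    exact ⟨p + q, by simp⟩
  | mul a b _ _ ha hb =>
    obtain ⟨p, rfl⟩ := ha
    obtain ⟨q, rfl⟩ := hb
    exact ⟨p * q, by simp⟩

open scoped IntermediateField.algebraAdjoinAdjoin in
theorem natDegree_ge_of_aeval_eq_zero (S : Set E) (t : E) (r : ℕ)
    (ht : Transcendental (Algebra.adjoin K S) t)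
    (q : (adjoin K (insert (t ^ r) S))[X]) (hq : q ≠ 0) (hroot : aeval t q = 0) :
    r ≤ q.natDegree := by
  by_contra hlt
  rw [not_le] at hlt
  set d := q.natDegree with hd
  obtain ⟨b, hb⟩ := IsLocalization.exist_integer_multiples
    (nonZeroDivisors (Algebra.adjoin K (insert (t ^ r) S))) (Finset.range (d + 1))
    (fun j => q.coeff j)
  have hb' : ∀ j ∈ Finset.range (d + 1), ∃ p : (Algebra.adjoin K S)[X],
      aeval (t ^ r) p = ((b : Algebra.adjoin K (insert (t ^ r) S)) : E) *
        ((q.coeff j : adjoin K (insert (t ^ r) S)) : E) := by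
    intro j hj
    obtain ⟨β, hβ⟩ := hb j hj
    obtain ⟨p, hp⟩ := exists_aeval_eq_of_mem_adjoin_insert S (t ^ r) β.2
    refine ⟨p, hp.trans ?_⟩
    have := congrArg (fun z : adjoin K (insert (t ^ r) S) => (z : E)) hβ
    simpa [Algebra.smul_def] using this
  choose! p hp using hb'
  have hP : aeval t (∑ j ∈ Finset.range (d + 1), expand (Algebra.adjoin K S) r (p j) * X ^ j)
      = 0 := by
    rw [map_sum]
    have h1 : ∀ j ∈ Finset.range (d + 1),
        aeval t (expand (Algebra.adjoin K S) r (p j) * X ^ j) =
          ((b : Algebra.adjoin K (insert (t ^ r) S)) : E) *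
            (((q.coeff j : adjoin K (insert (t ^ r) S)) : E) * t ^ j) := by
      intro j hj
      rw [map_mul, expand_aeval, hp j hj, map_pow, aeval_X, mul_assoc]
    rw [Finset.sum_congr rfl h1, ← Finset.mul_sum]
    have h2 : aeval t q = ∑ j ∈ Finset.range (d + 1),
        ((q.coeff j : adjoin K (insert (t ^ r) S)) : E) * t ^ j := by
      rw [aeval_eq_sum_range]
      refine Finset.sum_congr rfl (fun j _ => ?_)
      rw [Algebra.smul_def]
      rfl
    rw [← h2, hroot, mul_zero]
  have hP0 := (transcendental_iff.mp ht) _ hP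
  have hpd : p d = 0 := by
    ext m
    rw [← coeff_sum_expand_mul_X_pow r d hlt p m, hP0]
    simp
  have h3 := hp d (Finset.mem_range.mpr (Nat.lt_succ_self d))
  rw [hpd, map_zero] at h3
  have hb0 : ((b : Algebra.adjoin K (insert (t ^ r) S)) : E) ≠ 0 := by
    intro h
    have : (b : Algebra.adjoin K (insert (t ^ r) S)) = 0 := Subtype.ext h
    exact nonZeroDivisors.coe_ne_zero b this
  have hq0 : ((q.coeff d : adjoin K (insert (t ^ r) S)) : E) ≠ 0 := by
    intro h
    have : q.coeff d = 0 := Subtype.ext h
    rw [hd] at this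
    exact hq (leadingCoeff_eq_zero.mp this)
  exact (mul_ne_zero hb0 hq0) h3.symm

theorem finrank_adjoin_insert_pow (S : Set E) (t : E) (r : ℕ) (hr : 0 < r)
    (ht : Transcendental (Algebra.adjoin K S) t) :
    Module.finrank (adjoin K (insert (t ^ r) S)) E =
      r * Module.finrank (adjoin K (insert t S)) E := by
  have hle : adjoin K (insert (t ^ r) S) ≤ adjoin K (insert t S) := by
    rw [adjoin_le_iff]
    rintro x (rfl | hx)
    · exact pow_mem (subset_adjoin K _ (Set.mem_insert _ _)) r
    · exact subset_adjoin K _ (Set.mem_insert_of_mem _ hx)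
  rw [← relfinrank_mul_finrank_top hle, relfinrank_eq_finrank_of_le hle]
  congr 1
  -- the extension `K(S, t) / K(S, t^r)` is simple, generated by `t`
  have hext : extendScalars hle = (adjoin K (insert (t ^ r) S))⟮t⟯ := by
    apply restrictScalars_injective K
    rw [adjoin_adjoin_left]
    apply le_antisymm
    · change adjoin K (insert t S) ≤ _
      rw [adjoin_le_iff]
      rintro x (rfl | hx)
      · exact subset_adjoin K _ (Or.inr rfl)
      · exact subset_adjoin K _ (Or.inl (Set.mem_insert_of_mem _ hx))
    · rw [adjoin_le_iff]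
      rintro x (hx | hx)
      · exact hle (subset_adjoin K _ hx)
      · rw [Set.mem_singleton_iff] at hx
        subst hx
        exact subset_adjoin K _ (Set.mem_insert _ _)
  rw [hext]
  have hmem : t ^ r ∈ adjoin K (insert (t ^ r) S) := subset_adjoin K _ (Set.mem_insert _ _)
  have hmonic : (X ^ r - C (⟨t ^ r, hmem⟩ : adjoin K (insert (t ^ r) S))).Monic :=
    monic_X_pow_sub_C _ hr.ne'
  have hroot : aeval t (X ^ r - C (⟨t ^ r, hmem⟩ : adjoin K (insert (t ^ r) S))) = 0 := by
    simp
  have hint : IsIntegral (adjoin K (insert (t ^ r) S)) t := ⟨_, hmonic, hroot⟩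
  rw [adjoin.finrank hint]
  apply le_antisymm
  · have := natDegree_le_natDegree (minpoly.min _ t hmonic hroot)
    rwa [natDegree_X_pow_sub_C] at this
  · exact natDegree_ge_of_aeval_eq_zero S t r ht _ (minpoly.ne_zero hint) (minpoly.aeval _ _)

/-- Transcendence over a subalgebra passes to smaller subalgebras. -/
theorem transcendental_of_subalgebra_le {A B : Subalgebra K E} (h : A ≤ B) {x : E}
    (hx : Transcendental B x) : Transcendental A x := by
  rw [transcendental_iff] at hx ⊢
  intro p hp
  have hinj : Function.Injective (Subalgebra.inclusion h).toRingHom :=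
    Subalgebra.inclusion_injective h
  have h1 : aeval x (p.map (Subalgebra.inclusion h).toRingHom) = 0 := by
    rw [← hp, aeval_def, aeval_def, eval₂_map]
    rfl
  have h2 := hx _ h1
  exact (Polynomial.map_eq_zero_iff hinj).mp h2

theorem finrank_adjoin_mixed {ι : Type*} (t : ι → E) (ht : AlgebraicIndependent K t) (r : ℕ)
    (hr : 0 < r) (s : Finset ι) :
    Module.finrank (adjoin K (t '' ((s : Set ι)ᶜ) ∪ (fun i => t i ^ r) '' (s : Set ι))) E =
      r ^ s.card * Module.finrank (adjoin K (Set.range t)) E := by
  classical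
  induction s using Finset.induction_on with
  | empty =>
    have h0 : t '' (((∅ : Finset ι) : Set ι)ᶜ) ∪ (fun i => t i ^ r) '' ((∅ : Finset ι) : Set ι) =
        Set.range t := by simp
    rw [h0]
    simp
  | insert i s hi ih =>
    set S' : Set E := t '' (((insert i s : Finset ι) : Set ι)ᶜ) ∪ (fun j => t j ^ r) '' (s : Set ι)
      with hS'
    have h1 : t '' (((insert i s : Finset ι) : Set ι)ᶜ) ∪
        (fun j => t j ^ r) '' ((insert i s : Finset ι) : Set ι) = insert (t i ^ r) S' := by
      rw [hS', Finset.coe_insert, Set.image_insert_eq, Set.union_insert]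
    have h2 : t '' ((s : Set ι)ᶜ) ∪ (fun j => t j ^ r) '' (s : Set ι) = insert (t i) S' := by
      rw [hS', ← Set.insert_union, ← Set.image_insert_eq]
      congr 2
      ext j
      simp only [Set.mem_compl_iff, Finset.coe_insert, Set.mem_insert_iff, Finset.mem_coe,
        not_or]
      constructor
      · intro hj
        by_cases hji : j = i
        · exact Or.inl hji
        · exact Or.inr ⟨hji, hj⟩
      · rintro (rfl | ⟨_, hj⟩)
        · exact hi
        · exact hj
    have htr : Transcendental (Algebra.adjoin K S') (t i) := by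
      have h3 := ht.transcendental_adjoin (s := ({i}ᶜ : Set ι)) (i := i) (by simp)
      refine transcendental_of_subalgebra_le ?_ h3
      rw [Algebra.adjoin_le_iff]
      rintro x (⟨j, hj, rfl⟩ | ⟨j, hj, rfl⟩)
      · refine Algebra.subset_adjoin ⟨j, ?_, rfl⟩
        simp only [Finset.coe_insert, Set.mem_compl_iff, Set.mem_insert_iff, Finset.mem_coe,
          not_or] at hj
        exact hj.1
      · have hmem : t j ∈ Algebra.adjoin K (t '' ({i}ᶜ : Set ι)) := by
          refine Algebra.subset_adjoin ⟨j, ?_, rfl⟩
          rintro rfl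
          exact hi hj
        exact pow_mem hmem r
    rw [h1, finrank_adjoin_insert_pow S' (t i) r hr htr, ← h2, ih, Finset.card_insert_of_notMem hi]
    ring

/-- **FF4.** For an algebraically independent finite family `t` over `K` and `0 < r`:
`[E : K(t_i ^ r)] = r ^ (number of variables) * [E : K(t_i)]`. -/
theorem finrank_adjoin_range_pow {ι : Type*} [Fintype ι] (t : ι → E)
    (ht : AlgebraicIndependent K t) (r : ℕ) (hr : 0 < r) :
    Module.finrank (adjoin K (Set.range fun i => t i ^ r)) E =
      r ^ Fintype.card ι * Module.finrank (adjoin K (Set.range t)) E := by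
  have h0 : t '' (((Finset.univ : Finset ι) : Set ι)ᶜ) ∪
      (fun i => t i ^ r) '' ((Finset.univ : Finset ι) : Set ι) = Set.range fun i => t i ^ r := by
    simp
  have := finrank_adjoin_mixed t ht r hr Finset.univ
  rw [h0] at this
  simpa using this

/-- Subfield / ring-hom form of FF4, in the shape used by `LS.coordField` and `LS.Indep`. -/
theorem finrank_closure_range_pow {K E : Type*} [Field K] [Field E] (f : K →+* E) {g : ℕ}
    (t : Fin g → E)
    (ht : ∀ p : MvPolynomial (Fin g) K, MvPolynomial.eval₂ f t p = 0 → p = 0) (r : ℕ)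
    (hr : 0 < r) :
    Module.finrank (Subfield.closure (Set.range f ∪ Set.range fun i => t i ^ r)) E =
      r ^ g * Module.finrank (Subfield.closure (Set.range f ∪ Set.range t)) E := by
  let _ : Algebra K E := f.toAlgebra
  have hind : AlgebraicIndependent K t := by
    rw [algebraicIndependent_iff]
    intro p hp
    exact ht p (by rw [← hp, MvPolynomial.aeval_def]; rfl)
  have := finrank_adjoin_range_pow (K := K) t hind r hr
  rw [Fintype.card_fin] at this
  exact this

end Fermat.Agent.S26.LS.H798
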