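import Fermat.Agent.S26.SpecDeg
import Fermat.Agent.S26.LS.H798.FieldPow

/-!
# S26, block LS: `Stmt.LSScale` and `Stmt.LSPow` (helper798)

* `lsScale : Stmt.LSScale K` — scaling a system by a nonzero rational function changes neither
  goodness, nor independence of the affine coordinates, nor the degree.
* `lsPow : Stmt.LSPow K` — the `r`-th power of a good system with independent affine coordinates
  is good with independent affine coordinates, and its degree is `r ^ g` times the degree
  (field theory: `FieldPow.lean`).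

No normality of the local rings is needed for `GenAt (w ^ r) x b → GenAt w x b`: base point
freeness of `w` provides a generator `w b'` at `x`, and `w b = a • w b'`,
`w b' ^ r = c • w b ^ r` force `c * a ^ r = 1`.
-/

set_option autoImplicit false
universe u

open CategoryTheory CategoryTheory.Limits AlgebraicGeometry

namespace Fermat.Agent.S26.LS.H798

open Fermat.Agent.S26

noncomputable section

variable {X : Scheme.{u}} [IsIntegral X]

/-! ### Scaling -/

section Scale

variable {ι : Type}

theorem span_scale (w : ι → X.functionField) (h : X.functionField) (x : X) :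
    LS.span (fun i => h * w i) x =
      (LS.span w x).map (LinearMap.mulLeft (X.presheaf.stalk x) h) := by
  unfold LS.span
  rw [Submodule.map_span]
  congr 1
  ext y
  simp only [Set.mem_range, Set.mem_image, LinearMap.mulLeft_apply]
  constructor
  · rintro ⟨i, rfl⟩
    exact ⟨w i, ⟨i, rfl⟩, rfl⟩
  · rintro ⟨_, ⟨i, rfl⟩, rfl⟩
    exact ⟨i, rfl⟩

theorem mulLeft_injective_of_ne_zero (h : X.functionField) (hh : h ≠ 0) (x : X) :
    Function.Injective (LinearMap.mulLeft (X.presheaf.stalk x) h) := by
  intro a b hab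
  simp only [LinearMap.mulLeft_apply] at hab
  exact mul_left_cancel₀ hh hab

theorem genAt_scale_iff (w : ι → X.functionField) (h : X.functionField) (hh : h ≠ 0) (x : X)
    (b : ι) : LS.GenAt (fun i => h * w i) x b ↔ LS.GenAt w x b := by
  unfold LS.GenAt
  have hsing : Submodule.span (X.presheaf.stalk x) ({h * w b} : Set X.functionField) =
      (Submodule.span (X.presheaf.stalk x) ({w b} : Set X.functionField)).map
        (LinearMap.mulLeft (X.presheaf.stalk x) h) := by
    rw [Submodule.map_span, Set.image_singleton, LinearMap.mulLeft_apply]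
  rw [span_scale, hsing]
  constructor
  · rintro ⟨h1, h2⟩
    exact ⟨right_ne_zero_of_mul h1,
      Submodule.map_injective_of_injective (mulLeft_injective_of_ne_zero h hh x) h2⟩
  · rintro ⟨h1, h2⟩
    exact ⟨mul_ne_zero hh h1, by rw [h2]⟩

theorem good_scale (w : ι → X.functionField) (h : X.functionField) (hh : h ≠ 0)
    (hw : LS.Good w) : LS.Good (fun i => h * w i) := by
  obtain ⟨hbpf, haff⟩ := hw
  refine ⟨fun x => ?_, fun b => ?_⟩
  · obtain ⟨b, hb⟩ := hbpf x
    exact ⟨b, (genAt_scale_iff w h hh x b).mpr hb⟩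
  · obtain ⟨U, hU, hx⟩ := haff b
    exact ⟨U, hU, fun x => (hx x).trans (genAt_scale_iff w h hh x b).symm⟩

theorem ratios_scale {g : ℕ} (w : Fin (g + 1) → X.functionField) (h : X.functionField)
    (hh : h ≠ 0) : LS.ratios (fun i => h * w i) = LS.ratios w := by
  funext i
  unfold LS.ratios
  exact mul_div_mul_left _ _ hh

end Scale

/-! ### Systems with the same affine coordinates -/

section Ratios

variable {K : Type u} [Field K]

theorem indep_of_ratios_eq (str : X ⟶ Spec (CommRingCat.of K)) {g : ℕ}
    {w w' : Fin (g + 1) → X.functionField} (h : LS.ratios w' = LS.ratios w)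
    (hw : LS.Indep str w) : LS.Indep str w' := by
  unfold LS.Indep at hw ⊢
  rw [h]
  exact hw

theorem deg_of_ratios_eq (str : X ⟶ Spec (CommRingCat.of K)) {g : ℕ}
    {w w' : Fin (g + 1) → X.functionField} (h : LS.ratios w' = LS.ratios w) :
    LS.deg str w' = LS.deg str w := by
  unfold LS.deg LS.coordField
  rw [h]

end Ratios

/-- **LSScale** (`SpecDeg.lean`). -/
theorem lsScale (K : Type u) [Field K] [IsAlgClosed K] : Stmt.LSScale K := by
  intro X _ str g w h hh
  exact ⟨good_scale w h hh, indep_of_ratios_eq str (ratios_scale w h hh),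
    deg_of_ratios_eq str (ratios_scale w h hh)⟩

/-! ### Powers -/

section Pow

variable {ι : Type}

theorem genAt_pow (w : ι → X.functionField) (r : ℕ) (x : X) (b : ι) (hb : LS.GenAt w x b) :
    LS.GenAt (fun i => w i ^ r) x b := by
  obtain ⟨h0, hspan⟩ := hb
  refine ⟨pow_ne_zero r h0, ?_⟩
  unfold LS.span at hspan ⊢
  apply le_antisymm
  · rw [Submodule.span_le]
    rintro _ ⟨i, rfl⟩
    have hi : w i ∈ Submodule.span (X.presheaf.stalk x) ({w b} : Set X.functionField) := by
      rw [← hspan]
      exact Submodule.subset_span ⟨i, rfl⟩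
    obtain ⟨a, ha⟩ := Submodule.mem_span_singleton.mp hi
    refine Submodule.mem_span_singleton.mpr ⟨a ^ r, ?_⟩
    change a ^ r • w b ^ r = w i ^ r
    rw [← ha, Algebra.smul_def, Algebra.smul_def, map_pow, mul_pow]
  · rw [Submodule.span_le]
    intro y hy
    rw [Set.mem_singleton_iff] at hy
    subst hy
    exact Submodule.subset_span ⟨b, rfl⟩

theorem genAt_of_genAt_pow (w : ι → X.functionField) (r : ℕ) (hr : 0 < r) (x : X) (b : ι)
    (hbpf : LS.BPF w) (hb : LS.GenAt (fun i => w i ^ r) x b) : LS.GenAt w x b := by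
  obtain ⟨b', hb'0, hb'⟩ := hbpf x
  obtain ⟨hb0, hbr⟩ := hb
  have hwb0 : w b ≠ 0 := by
    intro h
    apply hb0
    change w b ^ r = 0
    rw [h, zero_pow hr.ne']
  refine ⟨hwb0, ?_⟩
  unfold LS.span at hb' hbr ⊢
  -- `w b = a • w b'`
  have h1 : w b ∈ Submodule.span (X.presheaf.stalk x) ({w b'} : Set X.functionField) := by
    rw [← hb']
    exact Submodule.subset_span ⟨b, rfl⟩
  obtain ⟨a, ha⟩ := Submodule.mem_span_singleton.mp h1
  -- `w b' ^ r = c • w b ^ r`
  have h2 : w b' ^ r ∈ Submodule.span (X.presheaf.stalk x) ({w b ^ r} : Set X.functionField) := by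
    rw [← hbr]
    exact Submodule.subset_span ⟨b', rfl⟩
  obtain ⟨c, hc⟩ := Submodule.mem_span_singleton.mp h2
  -- `c * a ^ r = 1`
  have h3 : algebraMap (X.presheaf.stalk x) X.functionField (c * a ^ r) = 1 := by
    have h4 : algebraMap (X.presheaf.stalk x) X.functionField (c * a ^ r) * w b' ^ r =
        1 * w b' ^ r := by
      rw [one_mul]
      conv_rhs => rw [← hc, ← ha]
      rw [Algebra.smul_def, Algebra.smul_def, map_mul, map_pow, mul_pow, mul_assoc]
    exact mul_right_cancel₀ (pow_ne_zero r hb'0) h4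
  have h5 : c * a ^ r = 1 := by
    apply IsFractionRing.injective (X.presheaf.stalk x) X.functionField
    rw [h3, map_one]
  have hunit : IsUnit a := by
    obtain ⟨k, rfl⟩ : ∃ k, r = k + 1 := ⟨r - 1, by omega⟩
    refine IsUnit.of_mul_eq_one (c * a ^ k) ?_
    rw [← h5, pow_succ]
    ring
  rw [hb', ← ha, Submodule.span_singleton_smul_eq hunit]

theorem good_pow (w : ι → X.functionField) (r : ℕ) (hr : 0 < r) (hw : LS.Good w) :
    LS.Good (fun i => w i ^ r) := by
  obtain ⟨hbpf, haff⟩ := hw
  refine ⟨fun x => ?_, fun b => ?_⟩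
  · obtain ⟨b, hb⟩ := hbpf x
    exact ⟨b, genAt_pow w r x b hb⟩
  · obtain ⟨U, hU, hx⟩ := haff b
    exact ⟨U, hU, fun x => (hx x).trans
      ⟨genAt_pow w r x b, genAt_of_genAt_pow w r hr x b hbpf⟩⟩

theorem ratios_pow {g : ℕ} (w : Fin (g + 1) → X.functionField) (r : ℕ) :
    LS.ratios (fun i => w i ^ r) = fun i => LS.ratios w i ^ r := by
  funext i
  unfold LS.ratios
  exact (div_pow _ _ _).symm

variable {K : Type u} [Field K]

theorem indep_pow (str : X ⟶ Spec (CommRingCat.of K)) {g : ℕ}
    (w : Fin (g + 1) → X.functionField) (r : ℕ) (hr : 0 < r) (hw : LS.Indep str w) :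
    LS.Indep str (fun i => w i ^ r) := by
  unfold LS.Indep at hw ⊢
  intro p hp
  rw [ratios_pow] at hp
  have h1 : MvPolynomial.eval₂ (ffStr str) (LS.ratios w) (MvPolynomial.expand r p) = 0 := by
    rw [MvPolynomial.eval₂_expand]
    exact hp
  exact (MvPolynomial.expand_eq_zero hr).mp (hw _ h1)

theorem deg_pow (str : X ⟶ Spec (CommRingCat.of K)) {g : ℕ}
    (w : Fin (g + 1) → X.functionField) (r : ℕ) (hr : 0 < r) (hw : LS.Indep str w) :
    LS.deg str (fun i => w i ^ r) = r ^ g * LS.deg str w := by
  unfold LS.deg LS.coordField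
  rw [ratios_pow]
  exact finrank_closure_range_pow (ffStr str) (LS.ratios w) hw r hr

end Pow

/-- **LSPow** (`SpecDeg.lean`). -/
theorem lsPow (K : Type u) [Field K] [IsAlgClosed K] : Stmt.LSPow K := by
  intro X _ str g w r hr hgood hind
  exact ⟨good_pow w r hr hgood, indep_pow str w r hr hind, deg_pow str w r hr hind⟩

end

end Fermat.Agent.S26.LS.H798
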